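/-
S41 (level raising), unit U7-(i), polynomial half (helper37).  Mathlib only.

For a short Weierstrass curve `y² = x³ + a₄ x + a₆` and a point `T = (xT, yT)`, the
`x`-coordinates `x₃ = x(Q + T)`, `x₄ = x(Q - T)` satisfy
  `(x₃ + x₄) (x - xT)² = 2 ((x xT + a₄)(x + xT) + 2 a₆)`,
  `(x₃ x₄) (x - xT)² = (x xT - a₄)² - 4 a₆ (x + xT)`      (`x = x(Q)`).
Hence for a split polynomial `P = c ∏ (X - r)`:
  `P(x₃) P(x₄) (x - xT)^(2 deg P) = (tilde P)(x)`,  `tilde P = c² ∏ q_r`,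
with the quadratics `q_r = qPoly a₄ a₆ xT r`.  The `X²`-coefficient of `q_r` is `(r - xT)²` and
`q_{xT} = -4 (xT³ + a₄ xT + a₆) X + const`, so
  `natDegree (tilde P) + (multiplicity of xT in P) = 2 deg P`.
-/
import Mathlib

set_option autoImplicit false

namespace Fermat.Agent.S41.H37

open Polynomial

variable {K : Type*} [Field K]

/-- The quadratic `q_r(x) = (r - x₃)(r - x₄) (x - xT)²`. -/
noncomputable def qPoly (a₄ a₆ xT r : K) : K[X] :=
  C ((r - xT) ^ 2) * X ^ 2 +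
    C (-2 * r ^ 2 * xT - 2 * r * (xT ^ 2 + a₄) - 2 * a₄ * xT - 4 * a₆) * X +
    C (r ^ 2 * xT ^ 2 - 2 * r * (a₄ * xT + 2 * a₆) + a₄ ^ 2 - 4 * a₆ * xT)

theorem eval_qPoly (a₄ a₆ xT r x : K) :
    (qPoly a₄ a₆ xT r).eval x = r ^ 2 * (x - xT) ^ 2 -
      r * (2 * ((x * xT + a₄) * (x + xT) + 2 * a₆)) + ((x * xT - a₄) ^ 2 - 4 * a₆ * (x + xT)) := by
  simp only [qPoly, eval_add, eval_mul, eval_C, eval_pow, eval_X]
  ring

/-- The defining property of `q_r`. -/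
theorem eval_qPoly_eq (a₄ a₆ xT r : K) {x x₃ x₄ : K}
    (hs : (x₃ + x₄) * (x - xT) ^ 2 = 2 * ((x * xT + a₄) * (x + xT) + 2 * a₆))
    (hm : (x₃ * x₄) * (x - xT) ^ 2 = (x * xT - a₄) ^ 2 - 4 * a₆ * (x + xT)) :
    (qPoly a₄ a₆ xT r).eval x = (x₃ - r) * (x₄ - r) * (x - xT) ^ 2 := by
  rw [eval_qPoly]
  linear_combination r * hs - hm

theorem natDegree_qPoly_le (a₄ a₆ xT r : K) : (qPoly a₄ a₆ xT r).natDegree ≤ 2 := by
  unfold qPoly
  compute_degree

theorem natDegree_qPoly_of_ne (a₄ a₆ : K) {xT r : K} (h : r ≠ xT) :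
    (qPoly a₄ a₆ xT r).natDegree = 2 := by
  unfold qPoly
  compute_degree!
  exact sub_ne_zero.mpr h

theorem natDegree_qPoly_self {a₄ a₆ xT : K} (h : 4 * (xT ^ 3 + a₄ * xT + a₆) ≠ 0) :
    (qPoly a₄ a₆ xT xT).natDegree = 1 := by
  have hc : -2 * xT ^ 2 * xT - 2 * xT * (xT ^ 2 + a₄) - 2 * a₄ * xT - 4 * a₆ ≠ 0 := by
    intro h0
    apply h
    linear_combination -h0
  have h0 : qPoly a₄ a₆ xT xT =
      C (-2 * xT ^ 2 * xT - 2 * xT * (xT ^ 2 + a₄) - 2 * a₄ * xT - 4 * a₆) * X +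
        C (xT ^ 2 * xT ^ 2 - 2 * xT * (a₄ * xT + 2 * a₆) + a₄ ^ 2 - 4 * a₆ * xT) := by
    unfold qPoly
    rw [sub_self]
    simp
  rw [h0]
  compute_degree!
  intro h1
  apply hc
  linear_combination h1

theorem qPoly_ne_zero {a₄ a₆ xT : K} (h : 4 * (xT ^ 3 + a₄ * xT + a₆) ≠ 0) (r : K) :
    qPoly a₄ a₆ xT r ≠ 0 := by
  intro h0
  by_cases hr : r = xT
  · subst hr
    have := natDegree_qPoly_self h
    rw [h0, natDegree_zero] at this
    omega
  · have := natDegree_qPoly_of_ne a₄ a₆ hr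
    rw [h0, natDegree_zero] at this
    omega

/-- `tilde P = c² ∏_{P(r) = 0} q_r`. -/
noncomputable def tilde (a₄ a₆ xT : K) (P : K[X]) : K[X] :=
  C (P.leadingCoeff ^ 2) * (P.roots.map (qPoly a₄ a₆ xT)).prod

theorem sum_natDegree_qPoly [DecidableEq K] {a₄ a₆ xT : K}
    (h : 4 * (xT ^ 3 + a₄ * xT + a₆) ≠ 0) (s : Multiset K) :
    (s.map fun r => (qPoly a₄ a₆ xT r).natDegree).sum + s.count xT = 2 * s.card := by
  induction s using Multiset.induction_on with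
  | empty => simp
  | cons a s ih =>
    rw [Multiset.map_cons, Multiset.sum_cons, Multiset.card_cons, Multiset.count_cons]
    by_cases ha : xT = a
    · subst ha
      rw [natDegree_qPoly_self h, if_pos rfl]
      omega
    · rw [natDegree_qPoly_of_ne a₄ a₆ (Ne.symm ha), if_neg ha]
      omega

/-- The degree of `tilde P`. -/
theorem natDegree_tilde [DecidableEq K] {a₄ a₆ xT : K}
    (h : 4 * (xT ^ 3 + a₄ * xT + a₆) ≠ 0) {P : K[X]} (hP : P ≠ 0) :
    (tilde a₄ a₆ xT P).natDegree + P.roots.count xT = 2 * P.roots.card := by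
  have hlc : P.leadingCoeff ^ 2 ≠ 0 := pow_ne_zero 2 (leadingCoeff_ne_zero.mpr hP)
  have h0 : (0 : K[X]) ∉ P.roots.map (qPoly a₄ a₆ xT) := by
    intro hmem
    obtain ⟨r, _, hr⟩ := Multiset.mem_map.mp hmem
    exact qPoly_ne_zero h r hr
  rw [tilde, natDegree_C_mul hlc, natDegree_multiset_prod _ h0, Multiset.map_map]
  exact sum_natDegree_qPoly h P.roots

theorem tilde_ne_zero {a₄ a₆ xT : K} (h : 4 * (xT ^ 3 + a₄ * xT + a₆) ≠ 0) {P : K[X]}
    (hP : P ≠ 0) : tilde a₄ a₆ xT P ≠ 0 := by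
  have hlc : P.leadingCoeff ^ 2 ≠ 0 := pow_ne_zero 2 (leadingCoeff_ne_zero.mpr hP)
  refine mul_ne_zero (C_ne_zero.mpr hlc) (Multiset.prod_ne_zero ?_)
  intro hmem
  obtain ⟨r, _, hr⟩ := Multiset.mem_map.mp hmem
  exact qPoly_ne_zero h r hr

theorem prod_eval_qPoly (a₄ a₆ xT : K) {x x₃ x₄ : K}
    (hs : (x₃ + x₄) * (x - xT) ^ 2 = 2 * ((x * xT + a₄) * (x + xT) + 2 * a₆))
    (hm : (x₃ * x₄) * (x - xT) ^ 2 = (x * xT - a₄) ^ 2 - 4 * a₆ * (x + xT)) (s : Multiset K) :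
    (s.map fun r => (qPoly a₄ a₆ xT r).eval x).prod =
      (s.map fun r => x₃ - r).prod * (s.map fun r => x₄ - r).prod * ((x - xT) ^ 2) ^ s.card := by
  induction s using Multiset.induction_on with
  | empty => simp
  | cons a s ih =>
    rw [Multiset.map_cons, Multiset.prod_cons, Multiset.map_cons, Multiset.prod_cons,
      Multiset.map_cons, Multiset.prod_cons, Multiset.card_cons, ih,
      eval_qPoly_eq a₄ a₆ xT a hs hm]
    ring

/-- The value of `tilde P`: `P(x₃) P(x₄) (x - xT)^(2 deg P)`. -/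
theorem eval_tilde (a₄ a₆ xT : K) {P : K[X]} (hP : P.Splits) {x x₃ x₄ : K}
    (hs : (x₃ + x₄) * (x - xT) ^ 2 = 2 * ((x * xT + a₄) * (x + xT) + 2 * a₆))
    (hm : (x₃ * x₄) * (x - xT) ^ 2 = (x * xT - a₄) ^ 2 - 4 * a₆ * (x + xT)) :
    (tilde a₄ a₆ xT P).eval x = P.eval x₃ * P.eval x₄ * ((x - xT) ^ 2) ^ P.roots.card := by
  have hev : ∀ z : K, P.eval z = P.leadingCoeff * (P.roots.map fun r => z - r).prod := by
    intro z
    conv_lhs => rw [hP.eq_prod_roots]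
    rw [eval_mul, eval_C, eval_multiset_prod, Multiset.map_map]
    congr 2
    apply Multiset.map_congr rfl
    intro r _
    simp
  rw [tilde, eval_mul, eval_C, eval_multiset_prod, Multiset.map_map]
  have := prod_eval_qPoly a₄ a₆ xT hs hm P.roots
  simp only [Function.comp_def]
  rw [this, hev x₃, hev x₄]
  ring

end Fermat.Agent.S41.H37
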