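/-
S41 (level raising), unit U7-(i) (helper37): the exact number of `p`-torsion points.

`K` an algebraically closed field, `W : y² = x³ + a₄ x + a₆` with `Δ ≠ 0`, `n = 2k + 1` nonzero
in `K`.  Then every root of the division polynomial `ladD W k` (landed S13 ladder) is SIMPLE, so
there are `2k² + 2k` distinct `x`-coordinates of nonzero `n`-torsion points, and for an odd prime
`p ≠ char K` the group `W[p]` has exactly `p²` elements.

Proof (no derivative): for `T ≠ 0` with `n T = 0` and every `Q ≠ 0, ± T`, `n (Q ± T) = n Q`, hence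
`X_n(x±) Z_n(x) = X_n(x) Z_n(x±)` (`x = x(Q)`, `x± = x(Q ± T)`), and with the polynomials
`tilde P` of `Tilde.lean`
  `tilde X_n · Z_n² · (X - xT)^(2 deg Z_n) = X_n² · tilde Z_n · (X - xT)^(2 deg X_n)`.
Comparing degrees: the multiplicity of `xT` in `Z_n = ladD²` is `2 (deg X_n - deg Z_n) = 2`.
-/
import Mathlib
import Fermat.Agent.S13.H61.Link
import Fermat.Agent.S13.H56.TorsionFinal
import Fermat.Agent.S52.H3.AddSubX
import Fermat.Agent.S52.H55.TorsionAnyChar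
import Fermat.Agent.S41.H37.Tilde

set_option autoImplicit false

namespace Fermat.Agent.S41.H37

open Polynomial WeierstrassCurve
open Fermat.Agent.S05 (xOf xOf_some)
open Fermat.Agent.S13.H15 (lad ladD lad_odd_snd lad_deg ladD_deg DegLC)

universe u

variable {K : Type u} [Field K] [DecidableEq K] (W : Affine K)

/-- Two nonzero points with the same `n`-th multiple give proportional ladder values. -/
theorem lad_cross {n : ℕ} {P Q : W.Point} (hP : P ≠ 0) (hQ : Q ≠ 0) (h : n • P = n • Q) :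
    (lad W n).1.eval (xOf P) * (lad W n).2.eval (xOf Q) =
      (lad W n).1.eval (xOf Q) * (lad W n).2.eval (xOf P) := by
  have hP' := Fermat.Agent.S13.H61.lad_spec W hP n
  have hQ' := Fermat.Agent.S13.H61.lad_spec W hQ n
  by_cases h0 : n • Q = 0
  · have h0' : n • P = 0 := h.trans h0
    rw [(hQ'.1 h0).1, (hP'.1 h0').1, mul_zero, mul_zero]
  · have h0' : n • P ≠ 0 := fun hh => h0 (h ▸ hh)
    obtain ⟨_, e1⟩ := hP'.2 h0'
    obtain ⟨_, e2⟩ := hQ'.2 h0
    rw [← e1, ← e2, h]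
    ring

omit [DecidableEq K] in
/-- The discriminant of a short Weierstrass curve. -/
theorem short_Δ (ha₁ : W.a₁ = 0) (ha₂ : W.a₂ = 0) (ha₃ : W.a₃ = 0) :
    W.Δ = -(2 ^ 4) * (4 * W.a₄ ^ 3 + 27 * W.a₆ ^ 2) := by
  simp only [WeierstrassCurve.Δ, WeierstrassCurve.b₂, WeierstrassCurve.b₄, WeierstrassCurve.b₆,
    WeierstrassCurve.b₈, ha₁, ha₂, ha₃]
  ring

omit [DecidableEq K] in
theorem two_ne_zero_of_short (ha₁ : W.a₁ = 0) (ha₂ : W.a₂ = 0) (ha₃ : W.a₃ = 0) (hΔ : W.Δ ≠ 0) :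
    (2 : K) ≠ 0 := by
  intro h2
  apply hΔ
  rw [short_Δ W ha₁ ha₂ ha₃, h2]
  ring

/-- A point killed by an odd number is not a point of order two. -/
theorem y_ne_zero_of_odd_torsion (ha₁ : W.a₁ = 0) (ha₃ : W.a₃ = 0) {k : ℕ} {xT yT : K}
    (hT : W.Nonsingular xT yT) (hnT : (2 * k + 1) • Affine.Point.some xT yT hT = 0) : yT ≠ 0 := by
  intro hy
  have hneg : yT = W.negY xT yT := by
    rw [Affine.negY, ha₁, ha₃, hy]
    ring
  have h2 : Affine.Point.some xT yT hT + Affine.Point.some xT yT hT = 0 :=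
    Affine.Point.add_self_of_Y_eq hneg
  have h3 : (2 * k + 1) • Affine.Point.some xT yT hT = Affine.Point.some xT yT hT := by
    rw [add_smul, one_smul, mul_comm, mul_smul, two_smul, h2, smul_zero, zero_add]
  rw [h3] at hnT
  exact Affine.Point.some_ne_zero hT hnT

variable [IsAlgClosed K]

/-- The polynomial identity behind the degree count. -/
theorem tilde_identity (ha₁ : W.a₁ = 0) (ha₂ : W.a₂ = 0) (ha₃ : W.a₃ = 0) (hΔ : W.Δ ≠ 0) {n : ℕ}
    {xT yT : K} (hT : W.Nonsingular xT yT) (hnT : n • Affine.Point.some xT yT hT = 0) :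
    tilde W.a₄ W.a₆ xT (lad W n).1 * (lad W n).2 ^ 2 *
        ((X - C xT) ^ 2) ^ (lad W n).2.roots.card =
      (lad W n).1 ^ 2 * tilde W.a₄ W.a₆ xT (lad W n).2 *
        ((X - C xT) ^ 2) ^ (lad W n).1.roots.card := by
  apply eq_of_infinite_eval_eq
  have hinf : ({xT}ᶜ : Set K).Infinite := (Set.finite_singleton xT).infinite_compl
  refine hinf.mono ?_
  intro x hx
  have hx' : x ≠ xT := hx
  obtain ⟨y, hQ⟩ := Fermat.Agent.S13.H56.exists_nonsingular_of_isAlgClosed W hΔ x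
  obtain ⟨x₃, y₃, h₃, x₄, y₄, h₄, hadd, hsub, -, -, hs, hm⟩ :=
    Fermat.Agent.S52.H3.add_sub_X W ha₁ ha₂ ha₃ hQ hT hx'
  have c3 := lad_cross W (n := n) (Affine.Point.some_ne_zero h₃) (Affine.Point.some_ne_zero hQ)
    (by rw [← hadd, smul_add, hnT, add_zero])
  have c4 := lad_cross W (n := n) (Affine.Point.some_ne_zero h₄) (Affine.Point.some_ne_zero hQ)
    (by rw [← hsub, smul_sub, hnT, sub_zero])
  rw [xOf_some, xOf_some] at c3 c4
  have e1 := eval_tilde W.a₄ W.a₆ xT (IsAlgClosed.splits (lad W n).1) hs hm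
  have e2 := eval_tilde W.a₄ W.a₆ xT (IsAlgClosed.splits (lad W n).2) hs hm
  simp only [Set.mem_ofPred_eq, eval_mul, eval_pow, eval_sub, eval_X, eval_C, e1, e2]
  linear_combination (((x - xT) ^ 2) ^ (lad W n).1.roots.card *
    ((x - xT) ^ 2) ^ (lad W n).2.roots.card) *
      (eval x (lad W n).2 * eval x₄ (lad W n).1 * c3 + eval x (lad W n).1 * eval x₃ (lad W n).2 * c4)

/-- **Every nonzero `n`-torsion point gives a simple root of the division polynomial.** -/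
theorem count_roots_ladD (ha₁ : W.a₁ = 0) (ha₂ : W.a₂ = 0) (ha₃ : W.a₃ = 0) (hΔ : W.Δ ≠ 0)
    (k : ℕ) (hn : ((2 * k + 1 : ℕ) : K) ≠ 0) {xT yT : K} (hT : W.Nonsingular xT yT)
    (hnT : (2 * k + 1) • Affine.Point.some xT yT hT = 0) :
    (ladD W k).roots.count xT = 1 := by
  have h2 : (2 : K) ≠ 0 := two_ne_zero_of_short W ha₁ ha₂ ha₃ hΔ
  have hy : yT ≠ 0 := y_ne_zero_of_odd_torsion W ha₁ ha₃ hT hnT
  have heq := Fermat.Agent.S52.H3.short_equation W ha₁ ha₂ ha₃ hT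
  have h4 : 4 * (xT ^ 3 + W.a₄ * xT + W.a₆) ≠ 0 := by
    rw [← heq]
    have : (4 : K) = 2 * 2 := by norm_num
    rw [this]
    exact mul_ne_zero (mul_ne_zero h2 h2) (pow_ne_zero 2 hy)
  obtain ⟨⟨hXd, hXc⟩, ⟨hZd, hZc⟩⟩ := lad_deg W (2 * k + 1)
  have hn2 : ((2 * k + 1 : ℕ) : K) ^ 2 ≠ 0 := pow_ne_zero 2 hn
  -- exact degrees
  have hXdeg : (lad W (2 * k + 1)).1.natDegree = (2 * k + 1) ^ 2 :=
    le_antisymm hXd (le_natDegree_of_ne_zero (by rw [hXc]; exact one_ne_zero))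
  have hZdeg : (lad W (2 * k + 1)).2.natDegree = (2 * k + 1) ^ 2 - 1 :=
    le_antisymm hZd (le_natDegree_of_ne_zero (by rw [hZc]; exact hn2))
  have hX0 : (lad W (2 * k + 1)).1 ≠ 0 := by
    intro h0
    rw [h0, coeff_zero] at hXc
    exact one_ne_zero hXc.symm
  have hZ0 : (lad W (2 * k + 1)).2 ≠ 0 := by
    intro h0
    rw [h0, coeff_zero] at hZc
    exact hn2 hZc.symm
  have hXcard : (lad W (2 * k + 1)).1.roots.card = (2 * k + 1) ^ 2 := by
    rw [← (IsAlgClosed.splits _).natDegree_eq_card_roots, hXdeg]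
  have hZcard : (lad W (2 * k + 1)).2.roots.card = (2 * k + 1) ^ 2 - 1 := by
    rw [← (IsAlgClosed.splits _).natDegree_eq_card_roots, hZdeg]
  -- `xT` is not a root of `X_n`
  have hXT : (lad W (2 * k + 1)).1.roots.count xT = 0 := by
    rw [Multiset.count_eq_zero, mem_roots hX0, IsRoot.def]
    have := Fermat.Agent.S13.H61.lad_fst_eval_ne_zero W (Affine.Point.some_ne_zero hT) hnT
    rwa [xOf_some] at this
  have dX := natDegree_tilde h4 hX0
  have dZ := natDegree_tilde h4 hZ0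
  have hid := congrArg natDegree (tilde_identity W ha₁ ha₂ ha₃ hΔ hT hnT)
  have hlin : ((X - C xT : K[X]) ^ 2) ≠ 0 := pow_ne_zero 2 (X_sub_C_ne_zero xT)
  have e_lin : ∀ m : ℕ, (((X - C xT : K[X]) ^ 2) ^ m).natDegree = 2 * m := by
    intro m
    rw [← pow_mul, natDegree_pow, natDegree_X_sub_C, mul_one]
  have eZ2 : ((lad W (2 * k + 1)).2 ^ 2).natDegree = 2 * (lad W (2 * k + 1)).2.natDegree :=
    natDegree_pow _ _
  have eX2 : ((lad W (2 * k + 1)).1 ^ 2).natDegree = 2 * (lad W (2 * k + 1)).1.natDegree :=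
    natDegree_pow _ _
  rw [natDegree_mul (mul_ne_zero (tilde_ne_zero h4 hX0) (pow_ne_zero 2 hZ0)) (pow_ne_zero _ hlin),
    natDegree_mul (tilde_ne_zero h4 hX0) (pow_ne_zero 2 hZ0),
    natDegree_mul (mul_ne_zero (pow_ne_zero 2 hX0) (tilde_ne_zero h4 hZ0)) (pow_ne_zero _ hlin),
    natDegree_mul (pow_ne_zero 2 hX0) (tilde_ne_zero h4 hZ0),
    e_lin, e_lin, eZ2, eX2, hXdeg, hZdeg, hXcard, hZcard] at hid
  rw [hXT, hXcard] at dX
  rw [hZcard] at dZ
  -- the multiplicity in `Z_n = ladD²`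
  have hZD : (lad W (2 * k + 1)).2.roots.count xT = 2 * (ladD W k).roots.count xT := by
    rw [lad_odd_snd, roots_pow, Multiset.count_nsmul]
  have hpos : 1 ≤ (2 * k + 1) ^ 2 := Nat.one_le_pow _ _ (by omega)
  rw [hZD] at dZ
  omega

omit [DecidableEq K] [IsAlgClosed K] in
theorem ladD_ne_zero (k : ℕ) (hn : ((2 * k + 1 : ℕ) : K) ≠ 0) : ladD W k ≠ 0 := by
  intro h0
  have h := (ladD_deg W k).2
  rw [h0, coeff_zero] at h
  exact hn (neg_eq_zero.mp h.symm)

/-- **The division polynomial has only simple roots.** -/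
theorem nodup_roots_ladD (ha₁ : W.a₁ = 0) (ha₂ : W.a₂ = 0) (ha₃ : W.a₃ = 0) (hΔ : W.Δ ≠ 0)
    (k : ℕ) (hn : ((2 * k + 1 : ℕ) : K) ≠ 0) : (ladD W k).roots.Nodup := by
  rw [Multiset.nodup_iff_count_le_one]
  intro a
  by_cases ha : a ∈ (ladD W k).roots
  · obtain ⟨y, hy⟩ := Fermat.Agent.S13.H56.exists_nonsingular_of_isAlgClosed W hΔ a
    have hroot : (ladD W k).eval a = 0 := (mem_roots (ladD_ne_zero W k hn)).mp ha
    have hnT := (Fermat.Agent.S13.H61.nsmul_some_eq_zero_iff_ladD W hy k).mpr hroot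
    exact (count_roots_ladD W ha₁ ha₂ ha₃ hΔ k hn hy hnT).le
  · rw [Multiset.count_eq_zero_of_notMem ha]
    omega

omit [DecidableEq K] in
theorem card_roots_ladD (k : ℕ) (hn : ((2 * k + 1 : ℕ) : K) ≠ 0) :
    (ladD W k).roots.card = 2 * k ^ 2 + 2 * k := by
  obtain ⟨hd, hc⟩ := ladD_deg W k
  rw [← (IsAlgClosed.splits _).natDegree_eq_card_roots]
  exact le_antisymm hd (le_natDegree_of_ne_zero (by rw [hc]; exact neg_ne_zero.mpr hn))

/-- There are at least `2k² + 2k + 1` points killed by `2k + 1`. -/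
theorem le_ncard_torsion (ha₁ : W.a₁ = 0) (ha₂ : W.a₂ = 0) (ha₃ : W.a₃ = 0) (hΔ : W.Δ ≠ 0)
    (k : ℕ) (hn : ((2 * k + 1 : ℕ) : K) ≠ 0)
    (hfin : {P : W.Point | (2 * k + 1) • P = 0}.Finite) :
    2 * k ^ 2 + 2 * k + 1 ≤ {P : W.Point | (2 * k + 1) • P = 0}.ncard := by
  have h0 : (0 : W.Point) ∈ {P : W.Point | (2 * k + 1) • P = 0} := smul_zero _
  have hsub : ((ladD W k).roots.toFinset : Set K) ⊆
      xOf '' ({P : W.Point | (2 * k + 1) • P = 0} \ {0}) := by
    intro a ha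
    rw [Finset.mem_coe, Multiset.mem_toFinset, mem_roots (ladD_ne_zero W k hn)] at ha
    obtain ⟨y, hy⟩ := Fermat.Agent.S13.H56.exists_nonsingular_of_isAlgClosed W hΔ a
    have hnT := (Fermat.Agent.S13.H61.nsmul_some_eq_zero_iff_ladD W hy k).mpr ha
    exact ⟨Affine.Point.some a y hy, ⟨hnT, Affine.Point.some_ne_zero hy⟩, xOf_some hy⟩
  have hfin' : ({P : W.Point | (2 * k + 1) • P = 0} \ {0}).Finite := hfin.sdiff
  have h1 := Set.ncard_le_ncard hsub (hfin'.image _)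
  rw [Set.ncard_coe_finset, Multiset.toFinset_card_of_nodup
    (nodup_roots_ladD W ha₁ ha₂ ha₃ hΔ k hn), card_roots_ladD W k hn] at h1
  have h2 := Set.ncard_image_le (f := xOf) hfin'
  have h3 := Set.ncard_sdiff_singleton_add_one h0 hfin
  omega

end Fermat.Agent.S41.H37
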