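/-
S41 (level raising), unit U7-(i) (helper37): `#W[p] = p²` exactly.

`K` algebraically closed, `W` a Weierstrass curve over `K` with `Δ ≠ 0`, `p` an odd prime with
`(p : K) ≠ 0`, and `6 ≠ 0` in `K` (used only to pass to the short form):
* `ncard_torsion_eq`      : `{P | p • P = 0}.ncard = p ^ 2`;
* `natCard_torsionBy_eq`  : `Nat.card (Submodule.torsionBy ℤ W.Point p) = p ^ 2`;
* `finrank_torsionBy_eq`  : the `ZMod p`-module `(W'⁄K)[p]` of the Prelude has `finrank = 2`.
-/
import Mathlib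
import Fermat.Prelude.Def_FLTPrelim_GaloisRep
import Fermat.Agent.S52.H98.ShortForm
import Fermat.Agent.S41.H37.TorsionCard

set_option autoImplicit false

namespace Fermat.Agent.S41.H37

open Polynomial WeierstrassCurve

universe u

variable {K : Type u} [Field K] [DecidableEq K] [IsAlgClosed K]

/-- A finite additive group of exponent `p` with more than `p` and at most `p²` elements has
exactly `p²` elements. -/
theorem card_eq_sq_of_exponent {G : Type*} [AddCommGroup G] [Finite G] {p : ℕ} (hp : p.Prime)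
    (hexp : ∀ x : G, p • x = 0) (hlt : p < Nat.card G) (hle : Nat.card G ≤ p ^ 2) :
    Nat.card G = p ^ 2 := by
  have : Fact p.Prime := ⟨hp⟩
  have hpg : IsPGroup p (Multiplicative G) := by
    intro g
    refine ⟨1, ?_⟩
    rw [pow_one]
    exact congrArg Multiplicative.ofAdd (hexp (Multiplicative.toAdd g))
  obtain ⟨m, hm⟩ := IsPGroup.iff_card.mp hpg
  have hcard : Nat.card (Multiplicative G) = Nat.card G := Nat.card_congr Multiplicative.toAdd
  rw [hcard] at hm
  rw [hm] at hlt hle ⊢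
  have h1 : m ≤ 2 := (Nat.pow_le_pow_iff_right hp.one_lt).mp hle
  have h2 : 1 < m := by
    by_contra h
    have hm1 : m ≤ 1 := by omega
    have := Nat.pow_le_pow_right hp.pos hm1
    rw [pow_one] at this
    omega
  have : m = 2 := by omega
  rw [this]

/-- **`#W[p] = p²`**, short Weierstrass form. -/
theorem ncard_torsion_eq_of_short (W : Affine K) (ha₁ : W.a₁ = 0) (ha₂ : W.a₂ = 0)
    (ha₃ : W.a₃ = 0) (hΔ : W.Δ ≠ 0) {p : ℕ} (hp : p.Prime) (hp2 : p ≠ 2) (hpK : (p : K) ≠ 0) :
    {P : W.Point | p • P = 0}.ncard = p ^ 2 := by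
  obtain ⟨hfin, hle⟩ := Fermat.Agent.S52.H55.card_torsion_le_of_cast_ne_zero W hp hp2 hpK
  obtain ⟨k, hk, rfl⟩ := Fermat.Agent.S13.H56.exists_eq_two_mul_add_one hp hp2
  have hge := le_ncard_torsion W ha₁ ha₂ ha₃ hΔ k hpK hfin
  -- the `p`-torsion subgroup
  let G : AddSubgroup W.Point :=
    { carrier := {P : W.Point | (2 * k + 1) • P = 0}
      zero_mem' := smul_zero _
      add_mem' := fun {a b} ha hb => by
        change (2 * k + 1) • (a + b) = 0
        rw [smul_add, ha, hb, add_zero]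
      neg_mem' := fun {a} ha => by
        change (2 * k + 1) • (-a) = 0
        rw [smul_neg, ha, neg_zero] }
  have : Finite G := hfin
  have hcard : Nat.card G = {P : W.Point | (2 * k + 1) • P = 0}.ncard :=
    Nat.card_coe_set_eq _
  rw [← hcard] at hge hle ⊢
  refine card_eq_sq_of_exponent hp (fun x => Subtype.ext x.2) ?_ hle
  have : 0 < k ^ 2 := by positivity
  omega

/-- **`#W[p] = p²`**, any Weierstrass curve with `Δ ≠ 0` over an algebraically closed field in
which `6 p ≠ 0`. -/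
theorem ncard_torsion_eq (W : Affine K) (h6 : (6 : K) ≠ 0) (hΔ : W.Δ ≠ 0) {p : ℕ}
    (hp : p.Prime) (hp2 : p ≠ 2) (hpK : (p : K) ≠ 0) :
    {P : W.Point | p • P = 0}.ncard = p ^ 2 := by
  have hΔ' : (Fermat.Agent.S52.H98.shortForm W).Δ ≠ 0 := by
    rw [Fermat.Agent.S52.H98.shortForm_Δ]
    exact mul_ne_zero (pow_ne_zero 12 h6) hΔ
  have hshort := ncard_torsion_eq_of_short (K := K) (Fermat.Agent.S52.H98.shortForm W)
    rfl rfl rfl hΔ' hp hp2 hpK
  have himage : (Fermat.Agent.S52.H98.shortPointEquiv W h6) '' {P : W.Point | p • P = 0} =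
      {P : (Fermat.Agent.S52.H98.shortForm W).toAffine.Point | p • P = 0} := by
    ext Q
    constructor
    · rintro ⟨P, hP, rfl⟩
      change p • (Fermat.Agent.S52.H98.shortPointEquiv W h6) P = 0
      rw [← map_nsmul, hP, map_zero]
    · intro hQ
      refine ⟨(Fermat.Agent.S52.H98.shortPointEquiv W h6).symm Q, ?_, by simp⟩
      change p • (Fermat.Agent.S52.H98.shortPointEquiv W h6).symm Q = 0
      rw [← map_nsmul, hQ, map_zero]
  rw [← Set.ncard_image_of_injective _ (Fermat.Agent.S52.H98.shortPointEquiv W h6).injective,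
    himage]
  exact hshort

/-- **`#W[p] = p²`** for the torsion submodule. -/
theorem natCard_torsionBy_eq (W : Affine K) (h6 : (6 : K) ≠ 0) (hΔ : W.Δ ≠ 0) {p : ℕ}
    (hp : p.Prime) (hp2 : p ≠ 2) (hpK : (p : K) ≠ 0) :
    Nat.card (Submodule.torsionBy ℤ W.Point p) = p ^ 2 := by
  have h := ncard_torsion_eq W h6 hΔ hp hp2 hpK
  rw [← Fermat.Agent.S13.H56.torsionBy_eq_setOf, ← Nat.card_coe_set_eq] at h
  exact h

open WeierstrassCurve.Affine in
/-- **`W[p]` is two-dimensional over `𝔽_p`** (the Prelude's `ZMod p`-module structure). -/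
theorem finrank_torsionBy_eq {R : Type*} [CommRing R] [Algebra R K] (W' : Affine R)
    (h6 : (6 : K) ≠ 0) (hΔ : (W'⁄K).Δ ≠ 0) {p : ℕ} (hp : p.Prime) (hp2 : p ≠ 2)
    (hpK : (p : K) ≠ 0) :
    Module.finrank (ZMod p) (Submodule.torsionBy ℤ (W'⁄K).Point p) = 2 := by
  have : Fact p.Prime := ⟨hp⟩
  have hcard := natCard_torsionBy_eq (W'⁄K) h6 hΔ hp hp2 hpK
  have : Finite (Submodule.torsionBy ℤ (W'⁄K).Point p) :=
    Nat.finite_of_card_ne_zero (by rw [hcard]; exact pow_ne_zero 2 hp.ne_zero)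
  have h := Module.natCard_eq_pow_finrank (K := ZMod p)
    (V := Submodule.torsionBy ℤ (W'⁄K).Point p)
  rw [hcard, Nat.card_zmod] at h
  exact (Nat.pow_right_injective hp.two_le h).symm

open WeierstrassCurve.Affine in
/-- **`E[p]` is two-dimensional over `𝔽_p`** for an elliptic curve over `ℚ` and an odd prime `p`
(points over `ℚ̄`, the Prelude's module structure). -/
theorem finrank_torsionBy_rat (E : WeierstrassCurve ℚ) [E.IsElliptic] {p : ℕ} (hp : p.Prime)
    (hp2 : p ≠ 2) :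
    Module.finrank (ZMod p) (Submodule.torsionBy ℤ (E⁄(AlgebraicClosure ℚ)).Point p) = 2 := by
  refine finrank_torsionBy_eq (K := AlgebraicClosure ℚ) E (by norm_num) ?_ hp hp2
    (by exact_mod_cast hp.ne_zero)
  have hE : E.Δ ≠ 0 := E.isUnit_Δ.ne_zero
  change (E.map (algebraMap ℚ (AlgebraicClosure ℚ))).Δ ≠ 0
  rw [WeierstrassCurve.map_Δ]
  exact (_root_.map_ne_zero _).mpr hE

open WeierstrassCurve.Affine in
/-- **`#E[p] = p²`** for an elliptic curve over `ℚ` and an odd prime `p` (points over `ℚ̄`). -/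
theorem natCard_torsionBy_rat (E : WeierstrassCurve ℚ) [E.IsElliptic] {p : ℕ} (hp : p.Prime)
    (hp2 : p ≠ 2) :
    Nat.card (Submodule.torsionBy ℤ (E⁄(AlgebraicClosure ℚ)).Point p) = p ^ 2 := by
  refine natCard_torsionBy_eq (K := AlgebraicClosure ℚ) (E⁄(AlgebraicClosure ℚ)) (by norm_num) ?_
    hp hp2 (by exact_mod_cast hp.ne_zero)
  have hE : E.Δ ≠ 0 := E.isUnit_Δ.ne_zero
  change (E.map (algebraMap ℚ (AlgebraicClosure ℚ))).Δ ≠ 0
  rw [WeierstrassCurve.map_Δ]
  exact (_root_.map_ne_zero _).mpr hE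

end Fermat.Agent.S41.H37
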